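/-
S36 ENGINE, leaf UNR (helper185): the inertia field `ℚ̄^{I_P}` of a place `P` of `ℚ̄` over `q`
is an UNRAMIFIED good level:

* `goodField_inertiaField` : `A2.GoodField P (fixedField I_P)`
  (= `A2.IF.H429.goodField_level` at `S = ∅`);
* `div_natCast_mem_of_mem_nonunits` : `e ∈ ℚ̄^{I_P}`, `e ∈ 𝔪_P`  ⟹  `e / q ∈ P`
  (from `A2.IF.H429.exists_zpow_of_mem_inertiaField`: Hilbert theory at finite level);
* `unramified_inertiaField` : the conjunction, i.e. the body of
  `S36.Eng.InertiaFieldStatement` (`Unramified P (inertiaFld P) q`) with the definitions unfolded.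

Imports only files of the landed A2 closure.
-/
import Fermat.Agent.A2.IF.H429.IF

set_option autoImplicit false
set_option linter.style.haveILetI false
set_option linter.unusedSectionVars false

noncomputable section

namespace Fermat.Agent.S36.H185

open Fermat.Agent.A2 Fermat.Agent.A2.IF.H429

/-- The level of the empty set is the inertia field. -/
theorem level_empty_eq (P : ValuationSubring Qb) :
    level P (∅ : Finset Qb) = IntermediateField.fixedField (P.inertiaSubgroupIn ℚ) := by
  apply le_antisymm
  · intro x hx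
    rw [mem_level_iff] at hx
    have hconj : conjSet (∅ : Finset Qb) = (∅ : Set Qb) := by
      ext y
      rw [mem_conjSet_iff]
      simp
    have h1 : level₁ P (∅ : Finset Qb) = ⊥ := by
      unfold level₁
      rw [hconj]
      exact IntermediateField.adjoin_empty _ _
    rw [h1, IntermediateField.mem_bot] at hx
    obtain ⟨y, rfl⟩ := hx
    exact y.2
  · exact inertiaField_le_level P ∅

/-- **UNR, part 1.**  The inertia field is a good level. -/
theorem goodField_inertiaField (q : ℕ) (hq : q.Prime) (P : ValuationSubring Qb)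
    (hP : P.LiesOverPrime q) :
    GoodField P (IntermediateField.fixedField (P.inertiaSubgroupIn ℚ)) := by
  have h := goodField_level q hq P hP (∅ : Finset Qb)
  rw [level_empty_eq] at h
  exact h

/-- **UNR, part 2.**  `q` is a uniformiser of `P ∩ ℚ̄^{I_P}`: an element of the inertia field
lying in the maximal ideal of `P` is divisible by `q` in `P`. -/
theorem div_natCast_mem_of_mem_nonunits (q : ℕ) (hq : q.Prime) (P : ValuationSubring Qb)
    (hP : P.LiesOverPrime q) (e : Qb)
    (he : e ∈ IntermediateField.fixedField (P.inertiaSubgroupIn ℚ))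
    (hne : e ∈ P.nonunits) : e * ((q : Qb))⁻¹ ∈ P := by
  by_cases he0 : e = 0
  · rw [he0, zero_mul]
    exact P.zero_mem
  obtain ⟨k, hk⟩ := exists_zpow_of_mem_inertiaField P q hq hP e he he0
  have hq0 : P.valuation (q : Qb) ≠ 0 := valuation_natCast_ne_zero P q hq
  have hq1 : P.valuation (q : Qb) < 1 := valuation_natCast_lt_one P q hP
  have he1 : P.valuation e < 1 := (ValuationSubring.mem_nonunits_iff P).1 hne
  -- `v e = v q ^ k`
  have hek : P.valuation e = P.valuation (q : Qb) ^ k := by
    rw [map_div₀, map_zpow₀] at hk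
    have h0 : P.valuation (q : Qb) ^ k ≠ 0 := zpow_ne_zero _ hq0
    exact (div_eq_one_iff_eq h0).1 hk
  -- `k ≥ 1`
  have hk1 : 1 ≤ k := by
    by_contra hcon
    have hk0 : k ≤ 0 := by omega
    have h1 : 1 ≤ P.valuation (q : Qb) ^ k := by
      obtain ⟨n, hn⟩ : ∃ n : ℕ, k = -(n : ℤ) := Int.exists_eq_neg_ofNat hk0
      rw [hn, zpow_neg, zpow_natCast]
      rw [one_le_inv₀ (pow_pos (zero_lt_iff.2 hq0) n)]
      exact pow_le_one' hq1.le n
    rw [← hek] at h1
    exact absurd he1 (not_lt.2 h1)
  rw [← ValuationSubring.valuation_le_one_iff, map_mul, map_inv₀, hek]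
  obtain ⟨n, hn⟩ : ∃ n : ℕ, k - 1 = (n : ℤ) := Int.eq_ofNat_of_zero_le (by omega : 0 ≤ k - 1)
  have hkn : k = (n : ℤ) + 1 := by omega
  rw [hkn, zpow_add_one₀ hq0, zpow_natCast, mul_assoc, mul_inv_cancel₀ hq0, mul_one]
  exact pow_le_one' hq1.le n

/-- **UNR.**  The inertia field of a place `P` over `q` is an unramified good level
(the body of `S36.Eng.InertiaFieldStatement`, definitions unfolded). -/
theorem unramified_inertiaField (q : ℕ) (hq : q.Prime) (P : ValuationSubring Qb)
    (hP : P.LiesOverPrime q) :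
    GoodField P (IntermediateField.fixedField (P.inertiaSubgroupIn ℚ)) ∧
      ∀ e : (IntermediateField.fixedField (P.inertiaSubgroupIn ℚ) : IntermediateField ℚ Qb),
        (e : Qb) ∈ P.nonunits → (e : Qb) * ((q : Qb))⁻¹ ∈ P :=
  ⟨goodField_inertiaField q hq P hP,
    fun e he => div_natCast_mem_of_mem_nonunits q hq P hP (e : Qb) e.2 he⟩

end Fermat.Agent.S36.H185

end
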